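/-
ALPHA-CHART (helper3), part 1: a common complement for finitely many subspaces of the same
codimension over an infinite field (pure linear algebra, Mathlib only).

* `alpg_exists_compl` : `Wi : Fin s → Submodule k U`, all of codimension `g` ⇒ some
  `c : Fin g → U` spans a complement of every `Wi i`;
* `alpg_linearIndependent_of_isCompl` : such a `c` is linearly independent.
-/
import Mathlib

set_option autoImplicit false

namespace Fermat.Agent.Alpha

variable {k U : Type*} [Field k] [AddCommGroup U] [Module k U]

/-- a spanning family of a complement of the right dimension is linearly independent. -/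
theorem alpg_linearIndependent_of_isCompl [FiniteDimensional k U] {g : ℕ} {W : Submodule k U}
    {c : Fin g → U} (hc : IsCompl W (Submodule.span k (Set.range c)))
    (hW : Module.finrank k W + g = Module.finrank k U) : LinearIndependent k c := by
  rw [linearIndependent_iff_card_eq_finrank_span, Fintype.card_fin, Set.finrank]
  have h1 := Submodule.finrank_add_eq_of_isCompl hc
  omega

/-- **common complement**: finitely many subspaces of codimension `g` over an infinite field have
a common complement spanned by `g` vectors. -/
theorem alpg_exists_compl [Infinite k] [FiniteDimensional k U] {ι : Type*} [Finite ι] :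
    ∀ (g : ℕ) (Wi : ι → Submodule k U),
      (∀ i, Module.finrank k (Wi i) + g = Module.finrank k U) →
      ∃ c : Fin g → U, ∀ i, IsCompl (Wi i) (Submodule.span k (Set.range c)) := by
  intro g
  induction g with
  | zero =>
    intro Wi hW
    refine ⟨Fin.elim0, fun i => ?_⟩
    have htop : Wi i = ⊤ := Submodule.eq_top_of_finrank_eq (by have := hW i; omega)
    have hbot : Submodule.span k (Set.range (Fin.elim0 : Fin 0 → U)) = ⊥ := by
      rw [Set.range_eq_empty, Submodule.span_empty]
    rw [htop, hbot]
    exact isCompl_top_bot
  | succ g ih =>
    intro Wi hW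
    have hne : ∀ i, Wi i ≠ ⊤ := by
      intro i htop
      have := hW i
      rw [htop, finrank_top] at this
      omega
    obtain ⟨c0, hc0⟩ := Submodule.exists_forall_notMem_of_forall_ne_top Wi hne
    have hdim : ∀ i, Module.finrank k ↥(Wi i ⊔ Submodule.span k {c0}) =
        Module.finrank k (Wi i) + 1 := by
      intro i
      have hdisj : Wi i ⊓ Submodule.span k {c0} = ⊥ := by
        rw [Submodule.eq_bot_iff]
        intro u hu
        obtain ⟨hu1, hu2⟩ := Submodule.mem_inf.mp hu
        obtain ⟨a, rfl⟩ := Submodule.mem_span_singleton.mp hu2
        by_contra hne0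
        have ha : a ≠ 0 := by
          rintro rfl
          exact hne0 (zero_smul _ _)
        apply hc0 i
        have := (Wi i).smul_mem a⁻¹ hu1
        rwa [smul_smul, inv_mul_cancel₀ ha, one_smul] at this
      have h1 := Submodule.finrank_sup_add_finrank_inf_eq (Wi i) (Submodule.span k {c0})
      rw [hdisj, finrank_bot, add_zero] at h1
      have hc00 : c0 ≠ 0 := by
        rintro rfl
        exact hc0 i (zero_mem _)
      rw [h1, finrank_span_singleton hc00]
    obtain ⟨c', hc'⟩ := ih (fun i => Wi i ⊔ Submodule.span k {c0}) (fun i => by
      rw [hdim i]; have := hW i; omega)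
    refine ⟨Fin.cons c0 c', fun i => ?_⟩
    have hspan : Submodule.span k (Set.range (Fin.cons c0 c' : Fin (g + 1) → U)) =
        Submodule.span k {c0} ⊔ Submodule.span k (Set.range c') := by
      rw [Fin.range_cons, Set.insert_eq, Submodule.span_union]
    have hsup : Wi i ⊔ Submodule.span k (Set.range (Fin.cons c0 c' : Fin (g + 1) → U)) = ⊤ := by
      rw [hspan, ← sup_assoc]
      exact (hc' i).sup_eq_top
    have hle : Module.finrank k ↥(Submodule.span k (Set.range (Fin.cons c0 c' : Fin (g + 1) → U)))
        ≤ g + 1 := by
      have := finrank_range_le_card (R := k) (Fin.cons c0 c' : Fin (g + 1) → U)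
      rwa [Fintype.card_fin] at this
    have h2 := Submodule.finrank_sup_add_finrank_inf_eq (Wi i)
      (Submodule.span k (Set.range (Fin.cons c0 c' : Fin (g + 1) → U)))
    rw [hsup, finrank_top] at h2
    have h3 := hW i
    have hinf : Module.finrank k ↥(Wi i ⊓
        Submodule.span k (Set.range (Fin.cons c0 c' : Fin (g + 1) → U))) = 0 := by omega
    refine IsCompl.of_eq ?_ hsup
    exact Submodule.finrank_eq_zero.mp hinf

end Fermat.Agent.Alpha
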