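/-
ALPHA-CHART (helper3), part 2: closed-fibre genericity over an algebraically closed field
(CurveP setting, any characteristic).

* `alpg_exists_place_notMem`, `alpg_infinite_place` : there are infinitely many places;
* `alpgIdx D = ℓ(D) - (deg D + 1 - g) ≥ 0` : the index of speciality, `= ℓ(K - D)`;
* `alpg_finite_bad`     : if `D` is special, only finitely many points `v` fail to lower the index,
  i.e. have `ℓ(D + v) = ℓ(D) + 1`;
* `alpg_exists_generic` : for finitely many degree-`0` divisors `X i` and a finite set `S` of places
  there is an effective `E` of degree `g`, disjoint from `S`, with `ℓ(X i + E) = 1` for all `i`.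
-/
import Mathlib
import Fermat.Agent.Lib.Alpha.KM.Flip

set_option autoImplicit false
set_option linter.unusedSectionVars false

namespace Fermat.Agent.Alpha

open Fermat.Agent.Curve Fermat.Agent.CurveP AlgebraicCurve PlaceAux RRAux

variable {K F : Type*} [Field K] [Field F] [Algebra K F] [IsAlgClosed K]
  {x : F} (hx : IsFunctionFieldGen K F x)
  [Algebra.IsSeparable (IntermediateField.adjoin K {x}) F]

include hx

/-- outside every finite set of places there is a place. -/
theorem alpg_exists_place_notMem {S : Set (Place K F)} (hS : S.Finite) : ∃ v : Place K F, v ∉ S := by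
  obtain ⟨v0⟩ := exists_place hx
  set A : Divisor K F := Finsupp.single v0 (2 * (genusR K F : ℤ) + 1) with hA
  have hdeg : Divisor.degree A = 2 * (genusR K F : ℤ) + 1 := alpk_degree_single hx v0 _
  obtain ⟨s, hs0, hnn, hav⟩ := alpk_exists_effective_avoiding hx (A := A) (by omega) hS
  by_contra hall
  push Not at hall
  have hzero : A + divOf hx s = 0 := by
    ext v
    rw [Finsupp.zero_apply]
    exact hav v (hall v)
  have h1 : Divisor.degree (A + divOf hx s) = 2 * (genusR K F : ℤ) + 1 := by
    rw [map_add, degree_divOf, add_zero, hdeg]
  rw [hzero, map_zero] at h1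
  omega

/-- there are infinitely many places. -/
theorem alpg_infinite_place : Infinite (Place K F) := by
  refine ⟨fun hfin => ?_⟩
  obtain ⟨v, hv⟩ := alpg_exists_place_notMem hx (S := Set.univ) Set.finite_univ
  exact hv (Set.mem_univ v)

/-- adding a point raises `ℓ` by at most one. -/
theorem alpg_ell_add_single_le (D : Divisor K F) (v : Place K F) :
    ell (D + Finsupp.single v 1) ≤ ell D + 1 := by
  obtain ⟨v0⟩ := exists_place hx
  have hω : KaehlerDifferential.D K F x ≠ 0 := D_gen_ne_zero hx v0
  have h1 := riemannRoch_divDiff hx hω D
  have h2 := riemannRoch_divDiff hx hω (D + Finsupp.single v 1)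
  rw [degree_add_single hx] at h2
  have h3 : ell (divDiff hx (KaehlerDifferential.D K F x) - (D + Finsupp.single v 1)) ≤
      ell (divDiff hx (KaehlerDifferential.D K F x) - D) := by
    have := finiteDimensional_riemannRochSpace hx
      (divDiff hx (KaehlerDifferential.D K F x) - D)
    apply Submodule.finrank_mono
    have : divDiff hx (KaehlerDifferential.D K F x) - (D + Finsupp.single v 1) =
        divDiff hx (KaehlerDifferential.D K F x) - D - Finsupp.single v 1 := by abel
    rw [this]
    exact alpk_space_sub_single_le hx _ v
  omega

theorem alpg_ell_le_add_single (D : Divisor K F) (v : Place K F) :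
    ell D ≤ ell (D + Finsupp.single v 1) := by
  have := finiteDimensional_riemannRochSpace hx (D + Finsupp.single v 1)
  exact Submodule.finrank_mono (riemannRochSpace_mono (le_add_single D v))

/-- **finitely many bad points**: if `D` is special (`ℓ(D) > deg D + 1 - g`), only finitely many
points `v` have `ℓ(D + v) = ℓ(D) + 1`. -/
theorem alpg_finite_bad {D : Divisor K F}
    (hi : Divisor.degree D + 1 - (genusR K F : ℤ) < ell D) :
    {v : Place K F | ell (D + Finsupp.single v 1) = ell D + 1}.Finite := by
  obtain ⟨v0⟩ := exists_place hx
  have hω : KaehlerDifferential.D K F x ≠ 0 := D_gen_ne_zero hx v0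
  obtain ⟨Kd, hRR⟩ : ∃ Kd : Divisor K F, ∀ E : Divisor K F,
      (ell E : ℤ) = Divisor.degree E + 1 - genusR K F + ell (Kd - E) :=
    ⟨_, fun E => riemannRoch_divDiff hx hω E⟩
  have h1 := hRR D
  have hpos : 0 < ell (Kd - D) := by
    have : (0 : ℤ) < ell (Kd - D) := by omega
    exact_mod_cast this
  have := finiteDimensional_riemannRochSpace hx (Kd - D)
  obtain ⟨f, hf⟩ := Module.finrank_pos_iff_exists_ne_zero.mp hpos
  have hf0 : (f : F) ≠ 0 := fun h => hf (Subtype.ext h)
  refine (alpk_finite_inexact hx (Kd - D) (f : F)).subset ?_
  intro v hv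
  simp only [Set.mem_ofPred_eq] at hv ⊢
  have h2 := hRR (D + Finsupp.single v 1)
  rw [degree_add_single hx] at h2
  have hsub : Kd - (D + Finsupp.single v 1) = Kd - D - Finsupp.single v 1 := by abel
  rw [hsub] at h2
  have hell : ell (Kd - D - Finsupp.single v 1) = ell (Kd - D) := by
    have : (ell (Kd - D - Finsupp.single v 1) : ℤ) = ell (Kd - D) := by
      have hv' : (ell (D + Finsupp.single v 1) : ℤ) = ell D + 1 := by exact_mod_cast hv
      omega
    exact_mod_cast this
  have heq : riemannRochSpace (Kd - D - Finsupp.single v 1) = riemannRochSpace (Kd - D) :=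
    Submodule.eq_of_le_of_finrank_eq (alpk_space_sub_single_le hx _ v) hell
  have hmem : (f : F) ∈ riemannRochSpace (Kd - D - Finsupp.single v 1) := by
    rw [heq]; exact f.2
  rw [alpk_mem_sub_single_iff hx v f.2] at hmem
  rcases hmem with h | h
  · exact absurd h hf0
  · omega

/-- **generic effective divisor of degree `g`**: for finitely many divisors `X i` of degree `0` and a
finite set `S` of places there is `E ≥ 0` of degree `g`, disjoint from `S`, with
`ℓ(X i + E) = 1` for all `i`. -/
theorem alpg_exists_generic {ι : Type*} [Finite ι] (X : ι → Divisor K F)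
    (hX : ∀ i, Divisor.degree (X i) = 0) {S : Set (Place K F)} (hS : S.Finite) :
    ∃ E : Divisor K F, 0 ≤ E ∧ Divisor.degree E = genusR K F ∧ (∀ v ∈ S, E v = 0) ∧
      ∀ i, ell (X i + E) = 1 := by
  -- induction: `E_j` of degree `j` with `ℓ(X i + E_j) ≤ 1`, for `j ≤ g`
  have step : ∀ j : ℕ, j ≤ genusR K F → ∃ E : Divisor K F, 0 ≤ E ∧ Divisor.degree E = j ∧
      (∀ v ∈ S, E v = 0) ∧ ∀ i, ell (X i + E) ≤ 1 := by
    intro j
    induction j with
    | zero =>
      intro _
      refine ⟨0, le_rfl, by simp, fun v _ => rfl, fun i => ?_⟩
      rw [add_zero]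
      have := ell_le hx (D := X i) (by rw [hX i])
      rw [hX i] at this
      omega
    | succ j ih =>
      intro hj
      obtain ⟨E, hE0, hEdeg, hES, hEell⟩ := ih (by omega)
      -- the bad sets
      have hbad : ∀ i, {v : Place K F | ell (X i + E) = 1 ∧
          ell (X i + E + Finsupp.single v 1) = ell (X i + E) + 1}.Finite := by
        intro i
        by_cases h1 : ell (X i + E) = 1
        · have hi : Divisor.degree (X i + E) + 1 - (genusR K F : ℤ) < ell (X i + E) := by
            rw [map_add, hX i, hEdeg, h1]
            push_cast
            omega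
          exact (alpg_finite_bad hx hi).subset (fun v hv => hv.2)
        · have : {v : Place K F | ell (X i + E) = 1 ∧
              ell (X i + E + Finsupp.single v 1) = ell (X i + E) + 1} = ∅ := by
            ext v
            simp only [Set.mem_ofPred_eq, Set.mem_empty_iff_false, iff_false, not_and]
            intro h
            exact absurd h h1
          rw [this]
          exact Set.finite_empty
      have hfin : (S ∪ ⋃ i, {v : Place K F | ell (X i + E) = 1 ∧
          ell (X i + E + Finsupp.single v 1) = ell (X i + E) + 1}).Finite :=
        hS.union (Set.finite_iUnion hbad)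
      obtain ⟨v, hv⟩ := alpg_exists_place_notMem hx hfin
      rw [Set.mem_union, not_or, Set.mem_iUnion, not_exists] at hv
      obtain ⟨hvS, hvbad⟩ := hv
      refine ⟨E + Finsupp.single v 1, ?_, ?_, ?_, ?_⟩
      · exact hE0.trans (le_add_single E v)
      · rw [degree_add_single hx, hEdeg]
        push_cast
        ring
      · intro w hw
        have hwv : w ≠ v := by
          rintro rfl
          exact hvS hw
        rw [single_add_apply_of_ne E hwv]
        exact hES w hw
      · intro i
        rw [← add_assoc]
        have hle := alpg_ell_add_single_le hx (X i + E) v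
        have h0 := hEell i
        by_cases h1 : ell (X i + E) = 1
        · have := hvbad i
          simp only [Set.mem_ofPred_eq, not_and] at this
          have := this h1
          omega
        · omega
  obtain ⟨E, hE0, hEdeg, hES, hEell⟩ := step (genusR K F) le_rfl
  refine ⟨E, hE0, hEdeg, hES, fun i => ?_⟩
  have h1 := le_ell hx (X i + E)
  rw [map_add, hX i, hEdeg] at h1
  have h2 := hEell i
  have : (1 : ℤ) ≤ ell (X i + E) := by omega
  have : 1 ≤ ell (X i + E) := by exact_mod_cast this
  omega

end Fermat.Agent.Alpha
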